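import Fermat.Agent.H25.Recip.Interfaces
import Fermat.Agent.H75.Inf2Galois

/-!
# P-CFT / RECIP-Q, row 1000 (RQ-BC): base change of the inflated standard cocycle

* `baseChange : BaseChangeStatement` (non-split case: `F' = F · E'` of the same degree);
* `baseChangeSplit : BaseChangeSplitStatement` (split case: `F ≤ E'`).

Galois theory inside `ℚ̄`: the restriction `r : Gal(F'/E') → Gal(F/E)` is defined through the
surjection `G_{E'} → Gal(F'/E')`; it is injective because `F' = F · E'`, hence bijective by the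
degree hypothesis.
-/

set_option autoImplicit false
set_option synthInstance.maxHeartbeats 400000
set_option linter.unusedSectionVars false

noncomputable section

namespace Fermat.Agent.H17.Recip

open Fermat.Agent.H13.Cft Fermat.Agent.H78.CFT Fermat.Agent.H61.CFT Fermat.Agent.H25.Recip
open Fermat.Agent.H75.Inf2

section

variable {E E' : IntermediateField ℚ Qb} (h : E ≤ E') (F : IntermediateField E Qb)
  [FiniteDimensional E F] [IsGalois E F] (F' : IntermediateField E' Qb)
  [FiniteDimensional E' F'] [IsGalois E' F']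

/-- The inclusion `G_{E'} → G_E`. -/
abbrev bcIncl : E'.fixingSubgroup →* E.fixingSubgroup :=
  Subgroup.inclusion (IntermediateField.fixingSubgroup_le h)

theorem bcIncl_coe (g : E'.fixingSubgroup) :
    ((bcIncl h g : E.fixingSubgroup) : Qb ≃ₐ[ℚ] Qb) = (g : Qb ≃ₐ[ℚ] Qb) := rfl

/-- An element of `G_{E'}` acts trivially on `F' = F · E'` iff it acts trivially on `F`. -/
theorem bc_res_eq_one_iff (hF : F'.restrictScalars ℚ = F.restrictScalars ℚ ⊔ E')
    (g : E'.fixingSubgroup) :
    resEF E' F' g = 1 ↔ resEF E F (bcIncl h g) = 1 := by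
  rw [resEF_eq_one_iff, resEF_eq_one_iff]
  constructor
  · intro hg x
    have hx : (x : Qb) ∈ F'.restrictScalars ℚ := by
      rw [hF]
      exact (le_sup_left : F.restrictScalars ℚ ≤ F.restrictScalars ℚ ⊔ E') x.2
    exact hg ⟨x, hx⟩
  · intro hg x
    have h1 : (g : Qb ≃ₐ[ℚ] Qb) ∈ (F.restrictScalars ℚ).fixingSubgroup := by
      rw [IntermediateField.mem_fixingSubgroup_iff]
      intro y hy
      exact hg ⟨y, hy⟩
    have h2 : (g : Qb ≃ₐ[ℚ] Qb) ∈ (F.restrictScalars ℚ ⊔ E').fixingSubgroup := by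
      rw [IntermediateField.fixingSubgroup_sup]
      exact ⟨h1, g.2⟩
    have hx : (x : Qb) ∈ F.restrictScalars ℚ ⊔ E' := by
      rw [← hF]
      exact x.2
    exact (IntermediateField.mem_fixingSubgroup_iff _ _).mp h2 _ hx

/-- The restriction `Gal(F'/E') → Gal(F/E)`. -/
def bcR (hF : F'.restrictScalars ℚ = F.restrictScalars ℚ ⊔ E') :
    (F' ≃ₐ[E'] F') →* (F ≃ₐ[E] F) :=
  (resEF E' F').liftOfRightInverse (Function.surjInv (resEF_surjective E' F'))
    (Function.surjInv_eq (resEF_surjective E' F'))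
    ⟨(resEF E F).comp (bcIncl h), fun g hg => by
      rw [MonoidHom.mem_ker] at hg ⊢
      exact (bc_res_eq_one_iff h F F' hF g).mp hg⟩

theorem bcR_res (hF : F'.restrictScalars ℚ = F.restrictScalars ℚ ⊔ E')
    (g : E'.fixingSubgroup) :
    bcR h F F' hF (resEF E' F' g) = resEF E F (bcIncl h g) :=
  MonoidHom.liftOfRightInverse_comp_apply _ _ _ _ _

theorem bcR_injective (hF : F'.restrictScalars ℚ = F.restrictScalars ℚ ⊔ E') :
    Function.Injective (bcR h F F' hF) := by
  rw [injective_iff_map_eq_one]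
  intro τ hτ
  obtain ⟨g, rfl⟩ := resEF_surjective E' F' τ
  rw [bcR_res] at hτ
  exact (bc_res_eq_one_iff h F F' hF g).mpr hτ

theorem bcR_bijective (hF : F'.restrictScalars ℚ = F.restrictScalars ℚ ⊔ E')
    (hdeg : Module.finrank E' F' = Module.finrank E F) :
    Function.Bijective (bcR h F F' hF) := by
  have hcard : Nat.card (F' ≃ₐ[E'] F') = Nat.card (F ≃ₐ[E] F) := by
    rw [IsGalois.card_aut_eq_finrank, IsGalois.card_aut_eq_finrank, hdeg]
  have : Finite (F ≃ₐ[E] F) := inferInstance
  have : Finite (F' ≃ₐ[E'] F') := inferInstance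
  exact (Nat.bijective_iff_injective_and_card _).mpr ⟨bcR_injective h F F' hF, hcard⟩

end

/-- **[RQ-BC]** base change of the inflated standard cocycle, non-split case. -/
theorem baseChange : BaseChangeStatement := by
  intro E E' h F _ _ F' _ _ hF hdeg σ hσ
  have hbij := bcR_bijective h F F' hF hdeg
  have hinj := bcR_injective h F F' hF
  obtain ⟨σ', hσ'⟩ := hbij.2 σ
  have hGσ : IsGen σ := isGen_of_forall_mem_zpowers hσ
  -- `σ'` generates
  have hgen' : ∀ τ : F' ≃ₐ[E'] F', ∃ i : ℕ, σ' ^ i = τ := by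
    intro τ
    obtain ⟨i, hi⟩ := hGσ.2 (bcR h F F' hF τ)
    refine ⟨i, hinj ?_⟩
    rw [map_pow, hσ', hi]
  have hzp : ∀ τ : F' ≃ₐ[E'] F', τ ∈ Subgroup.zpowers σ' := by
    intro τ
    obtain ⟨i, rfl⟩ := hgen' τ
    exact Subgroup.npow_mem_zpowers σ' i
  have hord : orderOf σ' = orderOf σ := by
    rw [← hσ']
    exact (orderOf_injective (bcR h F F' hF) hinj σ').symm
  -- the relation between the two restrictions
  have hrel : ∀ (g : E'.fixingSubgroup) (i : ℕ),
      resEF E F (bcIncl h g) = σ ^ i ↔ resEF E' F' g = σ' ^ i := by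
    intro g i
    rw [← bcR_res h F F' hF g]
    constructor
    · intro hg
      apply hinj
      rw [hg, map_pow, hσ']
    · intro hg
      rw [hg, map_pow, hσ']
  have hdlog : ∀ g : E'.fixingSubgroup,
      dlog σ (resEF E F (bcIncl h g)) = dlog σ' (resEF E' F' g) := by
    intro g
    unfold dlog
    congr 1
    ext i
    show σ ^ i = resEF E F (bcIncl h g) ↔ σ' ^ i = resEF E' F' g
    rw [eq_comm, hrel g i, eq_comm]
  refine ⟨σ', hzp, fun g i hg => (hrel g i).mp hg, ?_⟩
  intro a a' haa'
  funext x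
  obtain ⟨g₁, g₂⟩ := x
  show Units.map (algebraMap F Qb : F →* Qb)
      (stdCocycle σ (uMap E F a) (resEF E F (bcIncl h g₁), resEF E F (bcIncl h g₂))) =
    Units.map (algebraMap F' Qb : F' →* Qb)
      (stdCocycle σ' (uMap E' F' a') (resEF E' F' g₁, resEF E' F' g₂))
  rw [stdCocycle_apply, stdCocycle_apply, hdlog, hdlog, hord, map_pow, map_pow]
  congr 1
  apply Units.ext
  show (((a : E) : Qb)) = (((a' : E') : Qb))
  exact haa'.symm

/-- **[RQ-BC0]** base change, split case. -/
theorem baseChangeSplit : BaseChangeSplitStatement := by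
  intro E E' h F _ _ hFE σ a x
  obtain ⟨g₁, g₂⟩ := x
  have hone : ∀ g : E'.fixingSubgroup, resEF E F (bcIncl h g) = 1 := by
    intro g
    rw [resEF_eq_one_iff]
    intro y
    have hy : (y : Qb) ∈ E' := hFE y.2
    exact (IntermediateField.mem_fixingSubgroup_iff _ _).mp g.2 _ hy
  have hd : dlog σ (1 : F ≃ₐ[E] F) = 0 := by
    unfold dlog
    apply Nat.eq_zero_of_le_zero
    exact Nat.sInf_le (by simp)
  show Units.map (algebraMap F Qb : F →* Qb)
      (stdCocycle σ a (resEF E F (bcIncl h g₁), resEF E F (bcIncl h g₂))) = 1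
  rw [hone, hone, stdCocycle_apply, hd]
  simp

end Fermat.Agent.H17.Recip
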